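import Mathlib
import Fermat.Agent.T1.RedIface75
import Fermat.Agent.T1.Red68.Descent

/-!
# T1B (S44), brick F4 RED-N (helper3): INTERFACE (definitions and Props only)

`red` on line modules over `O_L` for the NODAL two-chart datum (reduced special fibre with several
components), in the vocabulary of T1A's G4 (`T1/RedIface75`: `PicX c0 A`, `PicX.map`, `red`, `J1`).

## What is different from the smooth case (T1A, `Red68`)

For an integral special fibre `Pic X_O → Pic X_L` is injective (`ExtInjective`), so `red` is defined
on all classes that extend.  For a reducible special fibre this is FALSE (vertical twists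
`O(a X_1)` are trivial on the generic fibre), and it becomes true exactly on the classes of
multidegree `0`.  The only property of "multidegree `0`" that the proof uses is

  (★)  `NoPartialSection` : a global section of `M` which vanishes identically on one component of the
       special fibre is divisible by `π`

(for `M` of multidegree `0` on a connected special fibre: the restriction to another component is a
section of a degree-`0` line bundle vanishing at a node, hence `0`).  So the abstract core takes a
SUBGROUP `P00 ≤ Pic X_O` all of whose representatives satisfy (★) and proves: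

* `ExtInjective00`  : `Pic X_O ⊇ P00 → Pic X_L` is injective (F4-b, `Fermat/Agent/T1B/RedN3/ExtInj00.lean`);
* hence `J0L := image of P00 in Pic X_L` carries `redL : J0L →* Pic X_κ`, a homomorphism with kernel
  `J1L := image of (P00 ∩ ker red)`, invariant under every automorphism of `O` that induces the
  identity on the residue field (F4-c, `Shell.lean`).  In KL46 terms: `sub_mem_J1` holds BY
  FUNCTORIALITY (`red ∘ σ_* = red`), no tame-symbol computation.

## Inputs expected from other bricks (hypotheses of the abstract core)

* `NodalGood (c0.baseChange O) π ι`  (F0 NODAL-UNR / F1b): `π` regular, for each component `i : ι` primes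
  `P0 i ≤ R0`, `P1 i ≤ R1`, `Q i ≤ R01` containing `π`, compatible on the overlap.
* `Red68.H0Const (c0.baseChange O)` : `H⁰(O_{X_O}) = O`.
* (★) for the classes of `P00` (F4-d: degree theory on the components of the special fibre, over the
  residue FIELD only; in the application `P00 := red ⁻¹' (multidegree 0)`).
* `PairExt` (F3' NODE45 (N-b) globalised + T1A `PtLine75` at smooth points): the class of
  `[Q'] - [Q]` for two `O`-points of the same reduction type lies in the image of `P00`; this gives
  KL46's `sub_mem_J0`.

Planned second part of this interface (after F0's output format is fixed): (N5) the kernel of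
`Pic X_κ ⊇ P00κ → ∏ Pic (X_i)` (restriction to the components) has no `p`-torsion for `κ` perfect of
characteristic `p` (torus points; Milnor patching on the two charts), and compatibility of `redL`
with the degeneracy maps `π_1, π_2` (needs the push-forward of F7/F8).
-/

set_option autoImplicit false
set_option linter.unusedSectionVars false

universe u

open TensorProduct

namespace Fermat.Agent.T1B.RedN3

open Fermat.Agent.Jac Fermat.Agent.Jac.LineOps39 Fermat.Agent.Jac.JGroup85Pic
open Fermat.Agent.Jac.BaseChange75 Fermat.Agent.T1.RedIface75 Fermat.Agent.T1.Red68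
open scoped Fermat.Agent.Jac.BaseChange75

/-! ### Part A: a two-chart ring whose fibre `p = 0` has several components -/

section Abstract

variable {A R0 R1 R01 : Type u} [CommRing A] [CommRing R0] [CommRing R1] [CommRing R01]
  [Algebra A R0] [Algebra A R1] [Algebra A R01] [Algebra R0 R01] [Algebra R1 R01]
  [IsScalarTower A R0 R01] [IsScalarTower A R1 R01]

/-- Hypotheses on the fibre `p = 0` of a two-chart ring: `p` is regular on the three rings; the
components of the fibre are indexed by `ι`; the component `i` is cut out by the primes `P0 i`,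
`P1 i`, `Q i` of `R0`, `R1`, `R01`, which contain `p` and are compatible with the restriction maps
(the component meets both charts and the overlap).  `inf0`, `inf1`: the fibre is reduced and has no
other component (only used by the PROVIDERS of `NoPartialSection`, not by the abstract core). -/
structure NodalGood (c : TwoChart A R0 R1 R01) (p : A) (ι : Type) where
  reg0 : ∀ x : R0, algebraMap A R0 p * x = 0 → x = 0
  reg1 : ∀ x : R1, algebraMap A R1 p * x = 0 → x = 0
  reg01 : ∀ x : R01, algebraMap A R01 p * x = 0 → x = 0
  P0 : ι → Ideal R0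
  P1 : ι → Ideal R1
  Q : ι → Ideal R01
  prime0 : ∀ i, (P0 i).IsPrime
  prime1 : ∀ i, (P1 i).IsPrime
  primeQ : ∀ i, (Q i).IsPrime
  comap0 : ∀ i, (Q i).comap (algebraMap R0 R01) = P0 i
  comap1 : ∀ i, (Q i).comap (algebraMap R1 R01) = P1 i
  mem0 : ∀ i, algebraMap A R0 p ∈ P0 i
  mem1 : ∀ i, algebraMap A R1 p ∈ P1 i
  inf0 : ∀ x : R0, (∀ i, x ∈ P0 i) → ∃ y : R0, x = algebraMap A R0 p * y
  inf1 : ∀ x : R1, (∀ i, x ∈ P1 i) → ∃ y : R1, x = algebraMap A R1 p * y

variable {c : TwoChart A R0 R1 R01} {p : A} {ι : Type}

/-- The global section `σ` of `M` vanishes identically on the component `i` of the fibre `p = 0`. -/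
def VanishesOn (hg : NodalGood c p ι) (M : QC2 A R0 R1 R01) (σ : M.H0) (i : ι) : Prop :=
  σ.1.1 ∈ (hg.P0 i) • (⊤ : Submodule R0 M.N0) ∧ σ.1.2 ∈ (hg.P1 i) • (⊤ : Submodule R1 M.N1)

/-- **(★)** A global section of `M` vanishing identically on some component of the fibre `p = 0` is
divisible by `p`. -/
def NoPartialSection (hg : NodalGood c p ι) (M : QC2 A R0 R1 R01) : Prop :=
  ∀ (σ : M.H0) (i : ι), VanishesOn hg M σ i → ∃ σ' : M.H0, σ = p • σ'

/-- **F4-b, module form** (`ExtInj00.lean`): over a DVR, a line `M` such that `M` and `M^∨` satisfy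
(★), with sections `σ ∈ H⁰(M)`, `τ ∈ H⁰(M^∨)` of nonzero pairing, is trivial. -/
def TrivialOfPairing (c : TwoChart A R0 R1 R01) (p : A) (ι : Type) : Prop :=
  ∀ (hg : NodalGood c p ι) (M : QC2 A R0 R1 R01) (hM : M.IsLine),
    NoPartialSection hg M → NoPartialSection hg (dual c M (isVB_of_isLine hM)) →
    ∀ (σ : M.H0) (τ : (dual c M (isVB_of_isLine hM)).H0), pair0 c hM σ τ ≠ 0 →
      Nonempty (QC2.Iso (QC2.unit : QC2 A R0 R1 R01) M)

end Abstract

/-! ### Part B: the hub statements on `PicX c0 O` -/

section Hub

variable {W B0 B1 B01 : Type u} [CommRing W] [CommRing B0] [CommRing B1] [CommRing B01]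
  [Algebra W B0] [Algebra W B1] [Algebra W B01] [Algebra B0 B01] [Algebra B1 B01]
  [IsScalarTower W B0 B01] [IsScalarTower W B1 B01]
  (c0 : TwoChart W B0 B1 B01)
  (O : Type u) [CommRing O] [Algebra W O]

/-- A subgroup of `Pic X_O` is BALANCED if every line representing one of its classes satisfies (★)
(in the application: the classes whose special fibre has multidegree `0`). -/
def Balanced {π : O} {ι : Type} (hg : NodalGood (c0.baseChange O) π ι)
    (P00 : Subgroup (PicX c0 O)) : Prop :=
  ∀ (M : QC2 O (O ⊗[W] B0) (O ⊗[W] B1) (O ⊗[W] B01)) (hM : M.IsLine),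
    LinePic.mk (c0.baseChange O) M hM ∈ P00 → NoPartialSection hg M

variable (L : Type u) [CommRing L] [Algebra W L] [Algebra O L] [IsScalarTower W O L]

/-- **F4-b, hub form**: `P00 → Pic X_L` is injective. -/
def ExtInjective00 (P00 : Subgroup (PicX c0 O)) : Prop :=
  ∀ x ∈ P00, PicX.map c0 O L x = 1 → x = 1

/-- `J⁰(L)`: the classes on `X_L` which extend to a class of `P00` on `X_O`. -/
noncomputable def J0L (P00 : Subgroup (PicX c0 O)) : Subgroup (PicX c0 L) :=
  P00.map (PicX.map c0 O L)

end Hub

section HubLocal

variable {W B0 B1 B01 : Type u} [CommRing W] [CommRing B0] [CommRing B1] [CommRing B01]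
  [Algebra W B0] [Algebra W B1] [Algebra W B01] [Algebra B0 B01] [Algebra B1 B01]
  [IsScalarTower W B0 B01] [IsScalarTower W B1 B01]
  (c0 : TwoChart W B0 B1 B01)
  (O : Type u) [CommRing O] [IsDomain O] [IsDiscreteValuationRing O] [Algebra W O]
  (L : Type u) [CommRing L] [Algebra W L] [Algebra O L] [IsScalarTower W O L]

/-- `J¹(L)`: the classes on `X_L` which extend to a class of `P00` with trivial special fibre. -/
noncomputable def J1L (P00 : Subgroup (PicX c0 O)) : Subgroup (PicX c0 L) :=
  (P00 ⊓ J1 c0 O).map (PicX.map c0 O L)

/-- **F4-c** (`Shell.lean`): the reduction map on `J⁰(L)`: a homomorphism `redL : J⁰(L) →* Pic X_κ`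
which is `red` on extensions, with kernel `J¹(L)`. -/
def HasRedL (P00 : Subgroup (PicX c0 O)) : Prop :=
  ∃ redL : J0L c0 O L P00 →* PicX c0 (IsLocalRing.ResidueField O),
    (∀ (x : PicX c0 O) (hx : x ∈ P00),
      redL ⟨PicX.map c0 O L x, Subgroup.mem_map_of_mem _ hx⟩ = red c0 O x) ∧
    ∀ y : J0L c0 O L P00, redL y = 1 ↔ (y : PicX c0 L) ∈ J1L c0 O L P00

/-- **F4-c, inertia invariance** (KL46 `sub_mem_J1`), hub form: if `gO`, `gL` are endomorphisms of
`Pic X_O`, `Pic X_L` (the action of an element of the inertia group) which commute with extension,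
with `gO` preserving `P00` and `red ∘ gO = red` on `P00`, then `gL y / y ∈ J¹(L)` for `y ∈ J⁰(L)`. -/
def InertiaInvariant (P00 : Subgroup (PicX c0 O)) : Prop :=
  ∀ (gO : PicX c0 O →* PicX c0 O) (gL : PicX c0 L →* PicX c0 L),
    (∀ x, PicX.map c0 O L (gO x) = gL (PicX.map c0 O L x)) →
    (∀ x ∈ P00, gO x ∈ P00) → (∀ x ∈ P00, red c0 O (gO x) = red c0 O x) →
    ∀ y ∈ J0L c0 O L P00, gL y / y ∈ J1L c0 O L P00

end HubLocal

end Fermat.Agent.T1B.RedN3
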