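import Mathlib
import Fermat.Agent.T1.Red68.PrimeDiv

/-!
# T1B (S44), brick F4 RED-N (helper3): module lemmas for a prime IDEAL

The prime-ideal versions of `T1/Red68/PrimeDiv` (there: a prime ELEMENT `p`; here: a prime ideal `P`,
"vanishing on a component").  `R` a commutative ring, `P` an ideal, `N` a projective module; membership
in `P • ⊤ ≤ N` is tested on the coordinates of a projective presentation.

* `mem_smul_top_iff_coord`        : `x ∈ P N ↔` all coordinates of `x` lie in `P`;
* `mem_smul_top_of_smul_mem`      : for `P` prime, `r ∉ P`, `r • x ∈ P N → x ∈ P N`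
  (`N / P N` is torsion-free over the domain `R / P`);
* `Invertible.mem_smul_top_or_forall_mem` : for `N` invertible, `φ x ∈ P → x ∈ P N ∨ ∀ n, φ n ∈ P`;
* `dual_mem_smul_top`             : for `N` finite projective, a linear form with values in `P`
  lies in `P N^∨`;
* `mem_smul_top_of_forall_mem`    : `x ∈ (P i) N` for all `i` and `⨅ P i ≤ (p)` imply `x ∈ p N`.
-/

set_option autoImplicit false

namespace Fermat.Agent.T1B.RedN3

open Module Fermat.Agent.T1.Red68

variable {R : Type*} [CommRing R] {N : Type*} [AddCommGroup N] [Module R N]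

/-- Coordinates of an element of `P N` lie in `P`. -/
theorem coord_mem_of_mem_smul_top (P : Ideal R) {X : Type*} (s : N →ₗ[R] (X →₀ R)) {x : N}
    (hx : x ∈ P • (⊤ : Submodule R N)) (k : X) : (s x) k ∈ P := by
  refine Submodule.smul_induction_on (p := fun x => (s x) k ∈ P) hx (fun a ha n _ => ?_)
    (fun y z hy hz => ?_)
  · rw [map_smul, Finsupp.smul_apply, smul_eq_mul]
    exact P.mul_mem_right _ ha
  · rw [map_add, Finsupp.add_apply]
    exact P.add_mem hy hz

/-- For a projective presentation `s`, `x ∈ P N` iff all coordinates of `x` lie in `P`. -/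
theorem mem_smul_top_iff_coord (P : Ideal R) (s : N →ₗ[R] (N →₀ R))
    (hs : Finsupp.linearCombination R id ∘ₗ s = LinearMap.id) (x : N) :
    x ∈ P • (⊤ : Submodule R N) ↔ ∀ k, (s x) k ∈ P := by
  refine ⟨fun hx k => coord_mem_of_mem_smul_top P s hx k, fun h => ?_⟩
  have h3 := LinearMap.congr_fun hs x
  simp only [LinearMap.coe_comp, Function.comp_apply, LinearMap.id_coe, id_eq] at h3
  rw [Finsupp.linearCombination_apply, Finsupp.sum] at h3
  rw [← h3]
  refine Submodule.sum_mem _ fun k _ => ?_
  exact Submodule.smul_mem_smul (h k) Submodule.mem_top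

/-- `N / P N` is torsion-free over `R / P` (`P` prime, `N` projective), elementwise. -/
theorem mem_smul_top_of_smul_mem [Module.Projective R N] {P : Ideal R} [hP : P.IsPrime] {r : R}
    (hr : r ∉ P) {x : N} (h : r • x ∈ P • (⊤ : Submodule R N)) :
    x ∈ P • (⊤ : Submodule R N) := by
  obtain ⟨s, hs⟩ := (Module.projective_def' (R := R) (P := N)).1 inferInstance
  rw [mem_smul_top_iff_coord P s hs] at h ⊢
  intro k
  have := h k
  rw [map_smul, Finsupp.smul_apply, smul_eq_mul] at this
  exact (hP.mem_or_mem this).resolve_left hr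

namespace Invertible

variable [Module.Invertible R N]

/-- For `N` invertible and `P` prime: `φ x ∈ P` implies `x ∈ P N` or `φ` has values in `P`. -/
theorem mem_smul_top_or_forall_mem {P : Ideal R} [hP : P.IsPrime] (φ : Module.Dual R N) (x : N)
    (h : φ x ∈ P) : x ∈ P • (⊤ : Submodule R N) ∨ ∀ n, φ n ∈ P := by
  by_cases hall : ∀ n, φ n ∈ P
  · exact Or.inr hall
  left
  push Not at hall
  obtain ⟨n, hn⟩ := hall
  have h1 : φ n • x = φ x • n := (Invertible.apply_smul_comm φ x n).symm
  have h2 : φ n • x ∈ P • (⊤ : Submodule R N) := by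
    rw [h1]
    exact Submodule.smul_mem_smul h Submodule.mem_top
  exact mem_smul_top_of_smul_mem hn h2

end Invertible

/-- A linear form with values in `P` on a finite projective module lies in `P N^∨`. -/
theorem dual_mem_smul_top [Module.Finite R N] [Module.Projective R N] (P : Ideal R)
    (φ : Module.Dual R N) (h : ∀ n, φ n ∈ P) : φ ∈ P • (⊤ : Submodule R (Module.Dual R N)) := by
  obtain ⟨m, f, g, _, _, hfg⟩ := Module.Finite.exists_comp_eq_id_of_projective R N
  have key : φ = ∑ k : Fin m, φ (f (Pi.single k 1)) • ((LinearMap.proj k : (Fin m → R) →ₗ[R] R) ∘ₗ g) := by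
    ext n
    have h1 : n = f (g n) := by
      have := LinearMap.congr_fun hfg n
      simpa using this.symm
    have h2 : g n = ∑ k : Fin m, (g n k) • (Pi.single k (1 : R) : Fin m → R) := by
      ext j
      simp [Finset.sum_apply, Pi.single_apply]
    conv_lhs => rw [h1, h2, map_sum, map_sum]
    rw [LinearMap.sum_apply]
    refine Finset.sum_congr rfl fun k _ => ?_
    simp only [LinearMap.smul_apply, LinearMap.coe_comp, Function.comp_apply,
      LinearMap.proj_apply, smul_eq_mul, map_smul]
    ring
  rw [key]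
  refine Submodule.sum_mem _ fun k _ => ?_
  exact Submodule.smul_mem_smul (h _) Submodule.mem_top

/-- If `x ∈ (P i) N` for every `i` and `⨅ i, P i ≤ (p)` then `x ∈ p N`. -/
theorem exists_eq_smul_of_forall_mem [Module.Projective R N] {ι : Type*} (P : ι → Ideal R) {p : R}
    (hinf : ∀ a : R, (∀ i, a ∈ P i) → ∃ b : R, a = p * b) {x : N}
    (h : ∀ i, x ∈ (P i) • (⊤ : Submodule R N)) : ∃ y : N, x = p • y := by
  obtain ⟨s, hs⟩ := (Module.projective_def' (R := R) (P := N)).1 inferInstance
  have hcoord : ∀ k, ∃ b : R, (s x) k = p * b := fun k =>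
    hinf _ fun i => coord_mem_of_mem_smul_top (P i) s (h i) k
  choose z hz using hcoord
  refine ⟨∑ k ∈ (s x).support, z k • k, ?_⟩
  have h3 := LinearMap.congr_fun hs x
  simp only [LinearMap.coe_comp, Function.comp_apply, LinearMap.id_coe, id_eq] at h3
  rw [Finsupp.linearCombination_apply, Finsupp.sum] at h3
  calc x = ∑ k ∈ (s x).support, (s x) k • id k := h3.symm
    _ = p • ∑ k ∈ (s x).support, z k • k := by
      rw [Finset.smul_sum]
      refine Finset.sum_congr rfl fun k _ => ?_
      rw [id_eq, smul_smul, ← hz k]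

end Fermat.Agent.T1B.RedN3
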