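import Mathlib
import Fermat.Agent.T1B.RedN3.Iface
import Fermat.Agent.T1B.RedN3.PrimeIdeal

/-!
# T1B (S44), brick F4 RED-N (helper3): the descent on the pairing for a NODAL special fibre

`c : TwoChart A R0 R1 R01`, `hg : NodalGood c p ι` (the fibre `p = 0` has the components `i : ι`).

* `NodalGood.s_notMem`, `t_notMem`      : the chart coordinates do not vanish on a component;
* `NodalGood.mem_of_r1_mem`, `mem_of_r0_mem` : a chart element of a line whose restriction to the
  overlap vanishes on the component `i` vanishes on the component `i`;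
* `vanishesOn_of_fst`, `vanishesOn_of_snd` : a global section of a line which vanishes on the
  component `i` in ONE chart vanishes on it in both;
* `exists_pairing_eq_one_of_pow` : the descent step: a pairing equal to `p ^ n` can be improved to a
  pairing equal to `1`, if `M` and `M^∨` have no partial sections (★);
* `trivialOfPairing` : `Iface.TrivialOfPairing` over a DVR.
-/

set_option autoImplicit false
set_option linter.unusedSectionVars false

universe u

namespace Fermat.Agent.T1B.RedN3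

open Fermat.Agent.Jac Fermat.Agent.Jac.LineOps39 Fermat.Agent.T1.Red68

variable {A R0 R1 R01 : Type u} [CommRing A] [CommRing R0] [CommRing R1] [CommRing R01]
  [Algebra A R0] [Algebra A R1] [Algebra A R01] [Algebra R0 R01] [Algebra R1 R01]
  [IsScalarTower A R0 R01] [IsScalarTower A R1 R01]
  {c : TwoChart A R0 R1 R01} {p : A} {ι : Type}

namespace NodalGood

variable (hg : NodalGood c p ι)
include hg

theorem s_notMem (i : ι) : c.s ∉ hg.P1 i := by
  intro h
  have h1 : algebraMap R1 R01 c.s ∈ hg.Q i := by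
    rw [← hg.comap1 i] at h
    exact h
  have h2 : IsUnit (algebraMap R1 R01 c.s) :=
    IsUnit.of_mul_eq_one _ (by rw [mul_comm]; exact c.ts)
  exact (hg.primeQ i).ne_top (Ideal.eq_top_of_isUnit_mem _ h1 h2)

theorem t_notMem (i : ι) : c.t ∉ hg.P0 i := by
  intro h
  have h1 : algebraMap R0 R01 c.t ∈ hg.Q i := by
    rw [← hg.comap0 i] at h
    exact h
  have h2 : IsUnit (algebraMap R0 R01 c.t) := IsUnit.of_mul_eq_one _ c.ts
  exact (hg.primeQ i).ne_top (Ideal.eq_top_of_isUnit_mem _ h1 h2)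

theorem s_pow_notMem (i : ι) (k : ℕ) : c.s ^ k ∉ hg.P1 i := fun h =>
  hg.s_notMem i ((hg.prime1 i).mem_of_pow_mem k h)

theorem t_pow_notMem (i : ι) (k : ℕ) : c.t ^ k ∉ hg.P0 i := fun h =>
  hg.t_notMem i ((hg.prime0 i).mem_of_pow_mem k h)

/-- The restriction to the overlap of a chart-0 element vanishing on the component `i` vanishes on
the component `i`. -/
theorem r0_mem (M : QC2 A R0 R1 R01) (i : ι) {x : M.N0}
    (hx : x ∈ (hg.P0 i) • (⊤ : Submodule R0 M.N0)) :
    M.r0 x ∈ (hg.Q i) • (⊤ : Submodule R01 M.N01) := by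
  refine Submodule.smul_induction_on
    (p := fun x => M.r0 x ∈ (hg.Q i) • (⊤ : Submodule R01 M.N01)) hx (fun a ha n _ => ?_)
    (fun y z hy hz => ?_)
  · rw [map_smul, ← algebraMap_smul R01 a (M.r0 n)]
    refine Submodule.smul_mem_smul ?_ Submodule.mem_top
    rw [← hg.comap0 i] at ha
    exact ha
  · rw [map_add]
    exact Submodule.add_mem _ hy hz

theorem r1_mem (M : QC2 A R0 R1 R01) (i : ι) {x : M.N1}
    (hx : x ∈ (hg.P1 i) • (⊤ : Submodule R1 M.N1)) :
    M.r1 x ∈ (hg.Q i) • (⊤ : Submodule R01 M.N01) := by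
  refine Submodule.smul_induction_on
    (p := fun x => M.r1 x ∈ (hg.Q i) • (⊤ : Submodule R01 M.N01)) hx (fun a ha n _ => ?_)
    (fun y z hy hz => ?_)
  · rw [map_smul, ← algebraMap_smul R01 a (M.r1 n)]
    refine Submodule.smul_mem_smul ?_ Submodule.mem_top
    rw [← hg.comap1 i] at ha
    exact ha
  · rw [map_add]
    exact Submodule.add_mem _ hy hz

/-- An element of `(Q i) N01` becomes, after multiplication by a power of `s`, the restriction of an
element of `(P1 i) N1`. -/
theorem exists_pow_smul_eq_r1 (M : QC2 A R0 R1 R01) (i : ι) {y : M.N01}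
    (hy : y ∈ (hg.Q i) • (⊤ : Submodule R01 M.N01)) :
    ∃ (k : ℕ) (w : M.N1), w ∈ (hg.P1 i) • (⊤ : Submodule R1 M.N1) ∧ (c.s ^ k) • y = M.r1 w := by
  have hloc := isLocalizedModule_r1 c M
  have haway := c.away1
  refine Submodule.smul_induction_on
    (p := fun y => ∃ (k : ℕ) (w : M.N1), w ∈ (hg.P1 i) • (⊤ : Submodule R1 M.N1) ∧
      (c.s ^ k) • y = M.r1 w) hy (fun q hq n _ => ?_) (fun y z hy hz => ?_)
  · obtain ⟨⟨z, ⟨_, k, rfl⟩⟩, hz⟩ := IsLocalizedModule.surj (Submonoid.powers c.s) M.r1 n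
    have hz' : (c.s ^ k) • n = M.r1 z := hz
    obtain ⟨⟨a, ⟨_, k', rfl⟩⟩, ha⟩ := IsLocalization.surj (Submonoid.powers c.s) q
    have ha' : q * algebraMap R1 R01 (c.s ^ k') = algebraMap R1 R01 a := ha
    have haP : a ∈ hg.P1 i := by
      rw [← hg.comap1 i, Ideal.mem_comap, ← ha']
      exact (hg.Q i).mul_mem_right _ hq
    refine ⟨k' + k, a • z, Submodule.smul_mem_smul haP Submodule.mem_top, ?_⟩
    have e1 : (c.s ^ (k' + k)) • (q • n) = (algebraMap R1 R01 (c.s ^ (k' + k)) * q) • n := by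
      rw [← algebraMap_smul R01 (c.s ^ (k' + k)) (q • n), smul_smul]
    have e2 : M.r1 (a • z) = (algebraMap R1 R01 a * algebraMap R1 R01 (c.s ^ k)) • n := by
      rw [map_smul, ← hz', ← algebraMap_smul R01 a, ← algebraMap_smul R01 (c.s ^ k) n, smul_smul]
    rw [e1, e2, ← ha', pow_add, map_mul]
    congr 1
    ring
  · obtain ⟨k1, w1, hw1, e1⟩ := hy
    obtain ⟨k2, w2, hw2, e2⟩ := hz
    refine ⟨k1 + k2, (c.s ^ k2) • w1 + (c.s ^ k1) • w2,
      Submodule.add_mem _ (Submodule.smul_mem _ _ hw1) (Submodule.smul_mem _ _ hw2), ?_⟩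
    rw [smul_add, map_add, map_smul, map_smul, ← e1, ← e2, smul_smul, smul_smul, pow_add,
      mul_comm (c.s ^ k1) (c.s ^ k2)]

theorem exists_pow_smul_eq_r0 (M : QC2 A R0 R1 R01) (i : ι) {y : M.N01}
    (hy : y ∈ (hg.Q i) • (⊤ : Submodule R01 M.N01)) :
    ∃ (k : ℕ) (w : M.N0), w ∈ (hg.P0 i) • (⊤ : Submodule R0 M.N0) ∧ (c.t ^ k) • y = M.r0 w := by
  have hloc := isLocalizedModule_r0 c M
  have haway := c.away0
  refine Submodule.smul_induction_on
    (p := fun y => ∃ (k : ℕ) (w : M.N0), w ∈ (hg.P0 i) • (⊤ : Submodule R0 M.N0) ∧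
      (c.t ^ k) • y = M.r0 w) hy (fun q hq n _ => ?_) (fun y z hy hz => ?_)
  · obtain ⟨⟨z, ⟨_, k, rfl⟩⟩, hz⟩ := IsLocalizedModule.surj (Submonoid.powers c.t) M.r0 n
    have hz' : (c.t ^ k) • n = M.r0 z := hz
    obtain ⟨⟨a, ⟨_, k', rfl⟩⟩, ha⟩ := IsLocalization.surj (Submonoid.powers c.t) q
    have ha' : q * algebraMap R0 R01 (c.t ^ k') = algebraMap R0 R01 a := ha
    have haP : a ∈ hg.P0 i := by
      rw [← hg.comap0 i, Ideal.mem_comap, ← ha']
      exact (hg.Q i).mul_mem_right _ hq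
    refine ⟨k' + k, a • z, Submodule.smul_mem_smul haP Submodule.mem_top, ?_⟩
    have e1 : (c.t ^ (k' + k)) • (q • n) = (algebraMap R0 R01 (c.t ^ (k' + k)) * q) • n := by
      rw [← algebraMap_smul R01 (c.t ^ (k' + k)) (q • n), smul_smul]
    have e2 : M.r0 (a • z) = (algebraMap R0 R01 a * algebraMap R0 R01 (c.t ^ k)) • n := by
      rw [map_smul, ← hz', ← algebraMap_smul R01 a, ← algebraMap_smul R01 (c.t ^ k) n, smul_smul]
    rw [e1, e2, ← ha', pow_add, map_mul]
    congr 1
    ring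
  · obtain ⟨k1, w1, hw1, e1⟩ := hy
    obtain ⟨k2, w2, hw2, e2⟩ := hz
    refine ⟨k1 + k2, (c.t ^ k2) • w1 + (c.t ^ k1) • w2,
      Submodule.add_mem _ (Submodule.smul_mem _ _ hw1) (Submodule.smul_mem _ _ hw2), ?_⟩
    rw [smul_add, map_add, map_smul, map_smul, ← e1, ← e2, smul_smul, smul_smul, pow_add,
      mul_comm (c.t ^ k1) (c.t ^ k2)]

/-- A chart-1 element of a line whose restriction to the overlap vanishes on the component `i`
vanishes on the component `i`. -/
theorem mem_of_r1_mem {M : QC2 A R0 R1 R01} (hM : M.IsLine) (i : ι) {x : M.N1}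
    (hx : M.r1 x ∈ (hg.Q i) • (⊤ : Submodule R01 M.N01)) :
    x ∈ (hg.P1 i) • (⊤ : Submodule R1 M.N1) := by
  have i1 := hM.inv1
  have hloc := isLocalizedModule_r1 c M
  have := hg.prime1 i
  obtain ⟨k, w, hw, e⟩ := hg.exists_pow_smul_eq_r1 M i hx
  have h1 : M.r1 ((c.s ^ k) • x) = M.r1 w := by rw [map_smul, e]
  obtain ⟨⟨_, m, rfl⟩, hm⟩ := (IsLocalizedModule.eq_iff_exists (Submonoid.powers c.s) M.r1).1 h1
  have hm' : (c.s ^ m) • ((c.s ^ k) • x) = (c.s ^ m) • w := hm
  have h2 : (c.s ^ (m + k)) • x ∈ (hg.P1 i) • (⊤ : Submodule R1 M.N1) := by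
    rw [pow_add, mul_smul, hm']
    exact Submodule.smul_mem _ _ hw
  exact mem_smul_top_of_smul_mem (hg.s_pow_notMem i _) h2

theorem mem_of_r0_mem {M : QC2 A R0 R1 R01} (hM : M.IsLine) (i : ι) {x : M.N0}
    (hx : M.r0 x ∈ (hg.Q i) • (⊤ : Submodule R01 M.N01)) :
    x ∈ (hg.P0 i) • (⊤ : Submodule R0 M.N0) := by
  have i0 := hM.inv0
  have hloc := isLocalizedModule_r0 c M
  have := hg.prime0 i
  obtain ⟨k, w, hw, e⟩ := hg.exists_pow_smul_eq_r0 M i hx
  have h1 : M.r0 ((c.t ^ k) • x) = M.r0 w := by rw [map_smul, e]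
  obtain ⟨⟨_, m, rfl⟩, hm⟩ := (IsLocalizedModule.eq_iff_exists (Submonoid.powers c.t) M.r0).1 h1
  have hm' : (c.t ^ m) • ((c.t ^ k) • x) = (c.t ^ m) • w := hm
  have h2 : (c.t ^ (m + k)) • x ∈ (hg.P0 i) • (⊤ : Submodule R0 M.N0) := by
    rw [pow_add, mul_smul, hm']
    exact Submodule.smul_mem _ _ hw
  exact mem_smul_top_of_smul_mem (hg.t_pow_notMem i _) h2

/-- A global section of a line vanishing on the component `i` in chart 0 vanishes on it. -/
theorem vanishesOn_of_fst {M : QC2 A R0 R1 R01} (hM : M.IsLine) (σ : M.H0) (i : ι)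
    (h : σ.1.1 ∈ (hg.P0 i) • (⊤ : Submodule R0 M.N0)) : VanishesOn hg M σ i := by
  refine ⟨h, hg.mem_of_r1_mem hM i ?_⟩
  rw [← H0_compat M σ]
  exact hg.r0_mem M i h

/-- A global section of a line vanishing on the component `i` in chart 1 vanishes on it. -/
theorem vanishesOn_of_snd {M : QC2 A R0 R1 R01} (hM : M.IsLine) (σ : M.H0) (i : ι)
    (h : σ.1.2 ∈ (hg.P1 i) • (⊤ : Submodule R1 M.N1)) : VanishesOn hg M σ i := by
  refine ⟨hg.mem_of_r0_mem hM i ?_, h⟩
  rw [H0_compat M σ]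
  exact hg.r1_mem M i h

end NodalGood

section Descent

variable (hg : NodalGood c p ι) [Nonempty ι] {M : QC2 A R0 R1 R01} (hM : M.IsLine)
include hg

/-- The descent step: a pairing equal to `p ^ n` can be improved to a pairing equal to `1`. -/
theorem exists_pairing_eq_one_of_pow' (hσ : NoPartialSection hg M)
    (hτ : NoPartialSection hg (dual c M (isVB_of_isLine hM))) (n : ℕ) :
    ∀ (σ : M.H0) (τ : (dual c M (isVB_of_isLine hM)).H0),
      pair0 c hM σ τ = algebraMap A R0 (p ^ n) → pair1 c hM σ τ = algebraMap A R1 (p ^ n) →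
      ∃ (σ' : M.H0) (τ' : (dual c M (isVB_of_isLine hM)).H0),
        pair0 c hM σ' τ' = 1 ∧ pair1 c hM σ' τ' = 1 := by
  have i0 := hM.inv0
  have i1 := hM.inv1
  induction n with
  | zero =>
    intro σ τ h0 h1
    exact ⟨σ, τ, by rw [h0, pow_zero, map_one], by rw [h1, pow_zero, map_one]⟩
  | succ n ih =>
    intro σ τ h0 h1
    have hcancel0 : ∀ a b : R0, algebraMap A R0 p * a = algebraMap A R0 p * b → a = b :=
      fun a b hab => by
        have : algebraMap A R0 p * (a - b) = 0 := by rw [mul_sub, hab, sub_self]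
        exact sub_eq_zero.1 (hg.reg0 _ this)
    have hcancel1 : ∀ a b : R1, algebraMap A R1 p * a = algebraMap A R1 p * b → a = b :=
      fun a b hab => by
        have : algebraMap A R1 p * (a - b) = 0 := by rw [mul_sub, hab, sub_self]
        exact sub_eq_zero.1 (hg.reg1 _ this)
    -- the pairing lies in every `P0 i`
    have hmem : ∀ i, (show Module.Dual R0 M.N0 from τ.1.1) σ.1.1 ∈ hg.P0 i := by
      intro i
      have := h0
      unfold pair0 at this
      rw [this, pow_succ', map_mul]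
      exact (hg.P0 i).mul_mem_right _ (hg.mem0 i)
    by_cases hex : ∃ i, σ.1.1 ∈ (hg.P0 i) • (⊤ : Submodule R0 M.N0)
    · -- `σ` vanishes on a component, hence is divisible by `p`
      obtain ⟨i, hi⟩ := hex
      obtain ⟨σ', rfl⟩ := hσ σ i (hg.vanishesOn_of_fst hM σ i hi)
      rw [pair0_smul_left, pow_succ', map_mul] at h0
      rw [pair1_smul_left, pow_succ', map_mul] at h1
      exact ih σ' τ (hcancel0 _ _ h0) (hcancel1 _ _ h1)
    · -- `τ` vanishes on every component, hence is divisible by `p`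
      push Not at hex
      obtain ⟨i⟩ := ‹Nonempty ι›
      have := hg.prime0 i
      have hall : ∀ n, (show Module.Dual R0 M.N0 from τ.1.1) n ∈ hg.P0 i :=
        (Invertible.mem_smul_top_or_forall_mem (P := hg.P0 i)
          (show Module.Dual R0 M.N0 from τ.1.1) σ.1.1 (hmem i)).resolve_left (hex i)
      have hfin : Module.Finite R0 M.N0 := (isVB_of_isLine hM).fin0
      have hproj : Module.Projective R0 M.N0 := (isVB_of_isLine hM).proj0
      have hτ0 : (show Module.Dual R0 M.N0 from τ.1.1) ∈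
          (hg.P0 i) • (⊤ : Submodule R0 (Module.Dual R0 M.N0)) :=
        dual_mem_smul_top (hg.P0 i) _ hall
      obtain ⟨τ', rfl⟩ := hτ τ i (hg.vanishesOn_of_fst (isLine_dual c hM) τ i hτ0)
      rw [pair0_smul_right, pow_succ', map_mul] at h0
      rw [pair1_smul_right, pow_succ', map_mul] at h1
      exact ih σ τ' (hcancel0 _ _ h0) (hcancel1 _ _ h1)

end Descent

section DVR

variable {O R0 R1 R01 : Type u} [CommRing O] [IsDomain O] [IsDiscreteValuationRing O]
  [CommRing R0] [CommRing R1] [CommRing R01]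
  [Algebra O R0] [Algebra O R1] [Algebra O R01] [Algebra R0 R01] [Algebra R1 R01]
  [IsScalarTower O R0 R01] [IsScalarTower O R1 R01]
  {c : TwoChart O R0 R1 R01} {π : O} {ι : Type} [Nonempty ι]

/-- **Descent**: over a DVR, a nonzero pairing can be improved to a pairing equal to `1`. -/
theorem exists_pairing_eq_one' (hπ : Irreducible π) (hg : NodalGood c π ι) (hH0 : H0Const c)
    {M : QC2 O R0 R1 R01} (hM : M.IsLine) (hσ : NoPartialSection hg M)
    (hτ : NoPartialSection hg (dual c M (isVB_of_isLine hM))) (σ : M.H0)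
    (τ : (dual c M (isVB_of_isLine hM)).H0) (hne : pair0 c hM σ τ ≠ 0) :
    ∃ (σ' : M.H0) (τ' : (dual c M (isVB_of_isLine hM)).H0),
      pair0 c hM σ' τ' = 1 ∧ pair1 c hM σ' τ' = 1 := by
  obtain ⟨a, ha0, ha1⟩ := hH0 _ _ (pair_compat c hM σ τ)
  have ha : a ≠ 0 := by
    rintro rfl
    rw [map_zero] at ha0
    exact hne ha0.symm
  obtain ⟨n, u, hu⟩ := IsDiscreteValuationRing.eq_unit_mul_pow_irreducible ha hπ
  refine exists_pairing_eq_one_of_pow' hg hM hσ hτ n (((u⁻¹ : Oˣ) : O) • σ) τ ?_ ?_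
  · rw [pair0_smul_left, ← ha0, ← map_mul, hu, ← mul_assoc, Units.inv_mul, one_mul]
  · rw [pair1_smul_left, ← ha1, ← map_mul, hu, ← mul_assoc, Units.inv_mul, one_mul]

/-- **F4-b, module form** (`Iface.TrivialOfPairing`): over a DVR whose two-chart ring has a fibre with
components `ι`, a line `M` such that `M` and `M^∨` have no partial sections, with sections
`σ ∈ H⁰(M)`, `τ ∈ H⁰(M^∨)` of nonzero pairing, is trivial. -/
theorem trivialOfPairing (hπ : Irreducible π) (hH0 : H0Const c) : TrivialOfPairing c π ι := by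
  intro hg M hM hσ hτ σ τ hne
  obtain ⟨σ', τ', h0, h1⟩ := exists_pairing_eq_one' hπ hg hH0 hM hσ hτ σ τ hne
  refine nonempty_iso_unit_of_section M hM σ' (show Module.Dual R0 M.N0 from τ'.1.1)
    (show Module.Dual R1 M.N1 from τ'.1.2) ?_ ?_
  · have : (show Module.Dual R0 M.N0 from τ'.1.1) σ'.1.1 = 1 := h0
    rw [this]; exact isUnit_one
  · have : (show Module.Dual R1 M.N1 from τ'.1.2) σ'.1.2 = 1 := h1
    rw [this]; exact isUnit_one

end DVR

end Fermat.Agent.T1B.RedN3
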