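import Mathlib
import Fermat.Agent.T1B.RedN3.Descent00
import Fermat.Agent.T1.Red68.ExtInj

/-!
# T1B (S44), brick F4 RED-N (helper3): `ExtInjective00`

`O` a DVR with uniformiser `π`, fraction field `L`, `hg : NodalGood (c0.baseChange O) π ι` (reduced
special fibre with components `ι`), `H⁰(O_{X_O}) = O`.

* `nonempty_iso_unit_of_liftData_unit'` : a line `M` on `X_O` with trivial generic fibre, such that
  `M` and `M^∨` have no partial sections (★), is trivial  [the sections `σ`, `τ` with nonzero pairing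
  are those of `T1/Red68/GenericFibre`, whose construction only uses that `π` is regular];
* `extInjective00` : for a BALANCED subgroup `P00 ≤ Pic X_O` (every representative of a class of
  `P00` satisfies (★)) the map `P00 → Pic X_L` is injective (`Iface.ExtInjective00`).
-/

set_option autoImplicit false
set_option linter.unusedSectionVars false

universe u

open TensorProduct

namespace Fermat.Agent.T1B.RedN3

open Fermat.Agent.Jac Fermat.Agent.Jac.LineOps39 Fermat.Agent.Jac.JSmooth85Alg
open Fermat.Agent.Jac.JGroup85Pic Fermat.Agent.Jac.BaseChange75 Fermat.Agent.T1.RedIface75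
open Fermat.Agent.T1.Red68
open scoped Fermat.Agent.Jac.BaseChange75

section Generic

variable {O R0 R1 R01 K R0' R1' R01' : Type u}
  [CommRing O] [IsDomain O] [IsDiscreteValuationRing O]
  [CommRing R0] [CommRing R1] [CommRing R01]
  [Algebra O R0] [Algebra O R1] [Algebra O R01] [Algebra R0 R01] [Algebra R1 R01]
  [IsScalarTower O R0 R01] [IsScalarTower O R1 R01]
  [CommRing K] [CommRing R0'] [CommRing R1'] [CommRing R01']
  [Algebra K R0'] [Algebra K R1'] [Algebra K R01'] [Algebra R0' R01'] [Algebra R1' R01']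
  [IsScalarTower K R0' R01'] [IsScalarTower K R1' R01']
  [Algebra R0 R0'] [Algebra R1 R1'] [Algebra R01 R01']

variable {M : QC2 O R0 R1 R01} (h : LiftData M (QC2.unit : QC2 K R0' R1' R01'))

variable {c : TwoChart O R0 R1 R01} {π : O} {ι : Type}
variable
  (hc0 : (algebraMap R0' R01').comp (algebraMap R0 R0') =
    (algebraMap R01 R01').comp (algebraMap R0 R01))
  (hc1 : (algebraMap R1' R01').comp (algebraMap R1 R1') =
    (algebraMap R01 R01').comp (algebraMap R1 R01))
  (hl0 : IsLocalization (Algebra.algebraMapSubmonoid R0 (nonZeroDivisors O)) R0')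
  (hl1 : IsLocalization (Algebra.algebraMapSubmonoid R1 (nonZeroDivisors O)) R1')
  (hl01 : IsLocalization (Algebra.algebraMapSubmonoid R01 (nonZeroDivisors O)) R01')

/-- `π` acts injectively on the overlap module of a line. -/
theorem NodalGood.smul_eq_zero_N01 (hg : NodalGood c π ι) {P : QC2 O R0 R1 R01} (hP : P.IsLine)
    {x : P.N01} (hx : π • x = 0) : x = 0 := by
  have := invertible_N01 hP
  rw [← algebraMap_smul R01 π x] at hx
  exact smul_eq_zero_of_projective hg.reg01 hx

/-- `O → R0` is injective. -/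
theorem NodalGood.algebraMap_O_R0_eq_zero [Nonempty ι] (hπ : Irreducible π) (hg : NodalGood c π ι)
    {d : O} (hd : algebraMap O R0 d = 0) : d = 0 := by
  by_contra hne
  have h1 : (1 : R0) = 0 := by
    refine smul_eq_zero_of_ne_zero hπ (N := R0) (fun y hy => hg.reg0 y ?_) hne ?_
    · rw [← Algebra.smul_def]; exact hy
    · rw [Algebra.smul_def, hd, zero_mul]
  obtain ⟨i⟩ := ‹Nonempty ι›
  apply (hg.prime0 i).ne_top
  rw [Ideal.eq_top_iff_one, h1]
  exact (hg.P0 i).zero_mem

include hl01 in
/-- `jLin01` is injective on a line (regularity of `π` only). -/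
theorem jLin01_eq_zero' (hπ : Irreducible π) (hg : NodalGood c π ι) (hM : M.IsLine) {y : M.N01}
    (hy : jLin01 h y = 0) : y = 0 := by
  have : IsLocalizedModule (Algebra.algebraMapSubmonoid R01 (nonZeroDivisors O)) (jLin01 h) :=
    (isLocalizedModule_iff_isBaseChange _ R01' _).mpr (jLin01_isBaseChange h)
  obtain ⟨⟨_, b, hb, rfl⟩, hs⟩ := (IsLocalizedModule.eq_zero_iff
    (Algebra.algebraMapSubmonoid R01 (nonZeroDivisors O)) (jLin01 h)).1 hy
  have hs' : (algebraMap O R01 b) • y = 0 := hs
  rw [algebraMap_smul] at hs'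
  exact smul_eq_zero_of_ne_zero hπ (fun x hx => hg.smul_eq_zero_N01 hM hx)
    (nonZeroDivisors.ne_zero hb) hs'

include hc0 hc1 hl0 hl1 hl01 in
/-- A global section of `M` mapping to a nonzero constant in the trivialisation. -/
theorem exists_section' (hπ : Irreducible π) (hg : NodalGood c π ι) (hM : M.IsLine) :
    ∃ (σ : M.H0) (a : O), a ≠ 0 ∧
      jLin0 h σ.1.1 = algebraMap R0 R0' (algebraMap O R0 a) := by
  obtain ⟨x0, a0, ha0, hx0⟩ := exists_jLin0_eq h hl0 (1 : R0')
  obtain ⟨x1, a1, ha1, hx1⟩ := exists_jLin1_eq h hl1 (1 : R1')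
  rw [mul_one] at hx0 hx1
  have e0 : jLin0 h (algebraMap O R0 a1 • x0) = algebraMap R0 R0' (algebraMap O R0 (a1 * a0)) := by
    rw [map_smul, hx0, Algebra.smul_def, ← map_mul, ← map_mul]
  have e1 : jLin1 h (algebraMap O R1 a0 • x1) = algebraMap R1 R1' (algebraMap O R1 (a1 * a0)) := by
    rw [map_smul, hx1, Algebra.smul_def, ← map_mul, ← map_mul, mul_comm]
  have hcompat : M.r0 (algebraMap O R0 a1 • x0) = M.r1 (algebraMap O R1 a0 • x1) := by
    rw [← sub_eq_zero]
    apply jLin01_eq_zero' h hl01 hπ hg hM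
    rw [map_sub, jLin01_r0, jLin01_r1, e0, e1, sub_eq_zero]
    have h0 := RingHom.congr_fun hc0 (algebraMap O R0 (a1 * a0))
    have h1 := RingHom.congr_fun hc1 (algebraMap O R1 (a1 * a0))
    simp only [RingHom.comp_apply] at h0 h1
    rw [h0, h1, ← IsScalarTower.algebraMap_apply O R0 R01,
      ← IsScalarTower.algebraMap_apply O R1 R01]
  exact ⟨⟨(algebraMap O R0 a1 • x0, algebraMap O R1 a0 • x1), (mem_H0_iff M _).2 hcompat⟩,
    a1 * a0, mul_ne_zero ha1 ha0, e0⟩

include hc0 hc1 hl0 hl1 hl01 in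
/-- A global section of `M^∨` which is a nonzero constant times the trivialisation. -/
theorem exists_cosection' (hπ : Irreducible π) (hg : NodalGood c π ι) (hM : M.IsLine) :
    ∃ (τ : (dual c M (isVB_of_isLine hM)).H0) (b : O), b ≠ 0 ∧
      ∀ n, algebraMap R0 R0' ((show Module.Dual R0 M.N0 from τ.1.1) n) =
        algebraMap R0 R0' (algebraMap O R0 b) * jLin0 h n := by
  obtain ⟨φ0, b0, hb0, hφ0⟩ := exists_form0 h hl0 hM
  obtain ⟨φ1, b1, hb1, hφ1⟩ := exists_form1 h hl1 hM
  have e0 : ∀ n, algebraMap R0 R0' ((algebraMap O R0 b1 • φ0) n) =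
      algebraMap R0 R0' (algebraMap O R0 (b1 * b0)) * jLin0 h n := fun n => by
    rw [LinearMap.smul_apply, smul_eq_mul, map_mul, hφ0 n, map_mul, map_mul, mul_assoc]
  have e1 : ∀ n, algebraMap R1 R1' ((algebraMap O R1 b0 • φ1) n) =
      algebraMap R1 R1' (algebraMap O R1 (b1 * b0)) * jLin1 h n := fun n => by
    rw [LinearMap.smul_apply, smul_eq_mul, map_mul, hφ1 n, map_mul, map_mul]
    ring
  have hinj : Function.Injective (algebraMap R01 R01') :=
    IsLocalization.injective R01' (algebraMapSubmonoid_le_nonZeroDivisors hπ hg.reg01)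
  have hcompat : (dual c M (isVB_of_isLine hM)).r0 (algebraMap O R0 b1 • φ0) =
      (dual c M (isVB_of_isLine hM)).r1 (algebraMap O R1 b0 • φ1) := by
    show transposeBC M.bc0 (algebraMap O R0 b1 • φ0) = transposeBC M.bc1 (algebraMap O R1 b0 • φ1)
    ext y
    apply hinj
    rw [transpose0_eq h hc0 _ _ e0 y, transpose1_eq h hc1 _ _ e1 y]
  exact ⟨⟨(algebraMap O R0 b1 • φ0, algebraMap O R1 b0 • φ1),
    (mem_H0_iff (dual c M (isVB_of_isLine hM)) _).2 hcompat⟩, b1 * b0, mul_ne_zero hb1 hb0, e0⟩

include h hc0 hc1 hl0 hl1 hl01 in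
/-- **A line on `X_O` with trivial generic fibre, such that `M` and `M^∨` have no partial sections,
is trivial** (abstract form of `ExtInjective00`). -/
theorem nonempty_iso_unit_of_liftData_unit' [Nonempty ι] (hπ : Irreducible π)
    (hg : NodalGood c π ι) (hH0 : H0Const c) (hM : M.IsLine) (hσ : NoPartialSection hg M)
    (hτ : NoPartialSection hg (dual c M (isVB_of_isLine hM))) :
    Nonempty (QC2.Iso (QC2.unit : QC2 O R0 R1 R01) M) := by
  obtain ⟨σ, a, ha, hσa⟩ := exists_section' h hc0 hc1 hl0 hl1 hl01 hπ hg hM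
  obtain ⟨τ, b, hb, hτb⟩ := exists_cosection' h hc0 hc1 hl0 hl1 hl01 hπ hg hM
  refine trivialOfPairing hπ hH0 hg M hM hσ hτ σ τ ?_
  have hinj : Function.Injective (algebraMap R0 R0') :=
    IsLocalization.injective R0' (algebraMapSubmonoid_le_nonZeroDivisors hπ hg.reg0)
  have hp : pair0 c hM σ τ = algebraMap O R0 (b * a) := by
    apply hinj
    unfold pair0
    rw [hτb, hσa, ← map_mul, ← map_mul]
  rw [hp]
  intro h0
  exact mul_ne_zero hb ha (hg.algebraMap_O_R0_eq_zero hπ h0)

end Generic

section Hub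

variable {W B0 B1 B01 : Type u} [CommRing W] [CommRing B0] [CommRing B1] [CommRing B01]
  [Algebra W B0] [Algebra W B1] [Algebra W B01] [Algebra B0 B01] [Algebra B1 B01]
  [IsScalarTower W B0 B01] [IsScalarTower W B1 B01]
  (c0 : TwoChart W B0 B1 B01)
  (O : Type u) [CommRing O] [IsDomain O] [IsDiscreteValuationRing O] [Algebra W O]
  (L : Type u) [Field L] [Algebra W L] [Algebra O L] [IsScalarTower W O L] [IsFractionRing O L]

/-- **`ExtInjective00`**: for a balanced subgroup `P00 ≤ Pic X_O`, a class of `P00` with trivial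
generic fibre is trivial. -/
theorem extInjective00 {π : O} {ι : Type} [Nonempty ι] (hπ : Irreducible π)
    (hg : NodalGood (c0.baseChange O) π ι) (hH0 : H0Const (c0.baseChange O))
    (P00 : Subgroup (PicX c0 O)) (hbal : Balanced c0 O hg P00) :
    ExtInjective00 c0 O L P00 := by
  intro y hyP hy
  obtain ⟨M, hM, rfl⟩ := LinePic.exists_rep y
  have hy' : LinePic.bc (square_comm W O L B0 B01) (square_comm W O L B1 B01)
      (c0.baseChange O) (c0.baseChange L) (LinePic.mk (c0.baseChange O) M hM) =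
      LinePic.mk (c0.baseChange L) QC2.unit isLine_unit := hy
  obtain ⟨h⟩ := LinePic.nonempty_liftData_of_bc_eq (square_comm W O L B0 B01)
    (square_comm W O L B1 B01) (c0.baseChange O) (c0.baseChange L) hM isLine_unit hy'
  have hσ : NoPartialSection hg M := hbal M hM hyP
  have hτ : NoPartialSection hg (dual (c0.baseChange O) M (isVB_of_isLine hM)) := by
    refine hbal _ (isLine_dual (c0.baseChange O) hM) ?_
    rw [← LinePic.inv_mk hM]
    exact P00.inv_mem hyP
  obtain ⟨e⟩ := nonempty_iso_unit_of_liftData_unit' h (square_comm W O L B0 B01)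
    (square_comm W O L B1 B01) (isLocalization_tensor O L B0) (isLocalization_tensor O L B1)
    (isLocalization_tensor O L B01) hπ hg hH0 hM hσ hτ
  rw [LinePic.one_def]
  exact LinePic.mk_eq_mk hM isLine_unit (isoSymm e)

end Hub

end Fermat.Agent.T1B.RedN3
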