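import Mathlib
import Fermat.Agent.T1B.RedN3.Iface
import Fermat.Agent.T1.Red11.MapComp

/-!
# T1B (S44), brick F4 RED-N (helper3): the group shell around `ExtInjective00`

`P00 ≤ Pic X_O` with `P00 → Pic X_L` injective (`hinj : ExtInjective00 c0 O L P00`).

* `redL hinj : J⁰(L) →* Pic X_κ` : the reduction map on `J⁰(L) = image of P00`;
  `redL_map` : it is `red` on extensions; `redL_eq_one_iff` : its kernel is `J¹(L)`;
  `hasRedL` : `Iface.HasRedL`;
* `J1L_le_J0L`;
* `inertiaInvariant` : `Iface.InertiaInvariant` (KL46 `sub_mem_J1`): `g y / y ∈ J¹(L)` for `y ∈ J⁰(L)`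
  and every `g` which commutes with extension, preserves `P00` and satisfies `red ∘ g = red`;
  `redL_inertia` : `redL (g y) = redL y`;
* functoriality in `(O, L) → (O', L')` (a local map of DVRs and the induced map of fraction fields):
  `map_mem_J0L`, `map_mem_J1L`, `redL_map_ext` : `redL' (y_{L'}) = (redL y)_{κ'}`.
-/

set_option autoImplicit false
set_option linter.unusedSectionVars false

universe u

open TensorProduct

namespace Fermat.Agent.T1B.RedN3

open Fermat.Agent.Jac Fermat.Agent.Jac.JGroup85Pic Fermat.Agent.Jac.BaseChange75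
open Fermat.Agent.T1.RedIface75 Fermat.Agent.T1.Red11
open scoped Fermat.Agent.Jac.BaseChange75

variable {W B0 B1 B01 : Type u} [CommRing W] [CommRing B0] [CommRing B1] [CommRing B01]
  [Algebra W B0] [Algebra W B1] [Algebra W B01] [Algebra B0 B01] [Algebra B1 B01]
  [IsScalarTower W B0 B01] [IsScalarTower W B1 B01]
  {c0 : TwoChart W B0 B1 B01}
  {O : Type u} [CommRing O] [IsDomain O] [IsDiscreteValuationRing O] [Algebra W O]
  {L : Type u} [CommRing L] [Algebra W L] [Algebra O L] [IsScalarTower W O L]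
  {P00 : Subgroup (PicX c0 O)}

theorem J1L_le_J0L : J1L c0 O L P00 ≤ J0L c0 O L P00 :=
  Subgroup.map_mono inf_le_left

section RedL

variable (hinj : ExtInjective00 c0 O L P00)
include hinj

/-- Two classes of `P00` with the same generic fibre are equal. -/
theorem eq_of_map_eq {x x' : PicX c0 O} (hx : x ∈ P00) (hx' : x' ∈ P00)
    (h : PicX.map c0 O L x = PicX.map c0 O L x') : x = x' := by
  have h1 : x * x'⁻¹ = 1 :=
    hinj _ (P00.mul_mem hx (P00.inv_mem hx')) (by rw [map_mul, map_inv, h, mul_inv_cancel])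
  exact mul_inv_eq_one.1 h1

omit hinj in
/-- A chosen extension to `P00` of a class of `J⁰(L)`. -/
noncomputable def extOf (y : J0L c0 O L P00) : PicX c0 O :=
  Classical.choose (Subgroup.mem_map.1 y.2)

omit hinj in
theorem extOf_mem (y : J0L c0 O L P00) : extOf y ∈ P00 :=
  (Classical.choose_spec (Subgroup.mem_map.1 y.2)).1

omit hinj in
theorem map_extOf (y : J0L c0 O L P00) : PicX.map c0 O L (extOf y) = y :=
  (Classical.choose_spec (Subgroup.mem_map.1 y.2)).2

theorem extOf_eq {y : J0L c0 O L P00} {x : PicX c0 O} (hx : x ∈ P00)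
    (h : PicX.map c0 O L x = y) : extOf y = x :=
  eq_of_map_eq hinj (extOf_mem y) hx (by rw [map_extOf, h])

/-- **The reduction map on `J⁰(L)`.** -/
noncomputable def redL : J0L c0 O L P00 →* PicX c0 (IsLocalRing.ResidueField O) where
  toFun y := red c0 O (extOf y)
  map_one' := by
    rw [extOf_eq hinj P00.one_mem (by rw [map_one]; rfl), map_one]
  map_mul' y y' := by
    rw [extOf_eq hinj (P00.mul_mem (extOf_mem y) (extOf_mem y'))
      (by rw [map_mul, map_extOf, map_extOf]; rfl), map_mul]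

/-- `redL` is `red` on extensions. -/
theorem redL_map (x : PicX c0 O) (hx : x ∈ P00) :
    redL hinj ⟨PicX.map c0 O L x, Subgroup.mem_map_of_mem _ hx⟩ = red c0 O x := by
  show red c0 O (extOf _) = red c0 O x
  rw [extOf_eq hinj hx rfl]

/-- The kernel of `redL` is `J¹(L)`. -/
theorem redL_eq_one_iff (y : J0L c0 O L P00) :
    redL hinj y = 1 ↔ (y : PicX c0 L) ∈ J1L c0 O L P00 := by
  constructor
  · intro h
    exact Subgroup.mem_map.2 ⟨extOf y, ⟨extOf_mem y, h⟩, map_extOf y⟩
  · rintro h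
    obtain ⟨x, ⟨hx, hx1⟩, hxy⟩ := Subgroup.mem_map.1 h
    show red c0 O (extOf y) = 1
    rw [extOf_eq hinj hx hxy]
    exact hx1

/-- **F4-c**: `Iface.HasRedL`. -/
theorem hasRedL : HasRedL c0 O L P00 :=
  ⟨redL hinj, redL_map hinj, redL_eq_one_iff hinj⟩

end RedL

/-! ### Inertia invariance -/

/-- **F4-c**: `Iface.InertiaInvariant` (KL46 `sub_mem_J1`, by functoriality). -/
theorem inertiaInvariant : InertiaInvariant c0 O L P00 := by
  intro gO gL hcomm hP hred y hy
  obtain ⟨x, hx, rfl⟩ := Subgroup.mem_map.1 hy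
  refine Subgroup.mem_map.2 ⟨gO x / x, ⟨P00.div_mem (hP x hx) hx, ?_⟩, ?_⟩
  · show red c0 O (gO x / x) = 1
    rw [map_div, hred x hx, div_self']
  · rw [map_div, hcomm]

/-- `redL (g y) = redL y` for `g` as in `InertiaInvariant`. -/
theorem redL_inertia (hinj : ExtInjective00 c0 O L P00)
    (gO : PicX c0 O →* PicX c0 O) (gL : PicX c0 L →* PicX c0 L)
    (hcomm : ∀ x, PicX.map c0 O L (gO x) = gL (PicX.map c0 O L x))
    (hP : ∀ x ∈ P00, gO x ∈ P00) (hred : ∀ x ∈ P00, red c0 O (gO x) = red c0 O x)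
    (y : J0L c0 O L P00) (hgy : gL y ∈ J0L c0 O L P00) :
    redL hinj ⟨gL y, hgy⟩ = redL hinj y := by
  obtain ⟨y, hy⟩ := y
  obtain ⟨x, hx, rfl⟩ := Subgroup.mem_map.1 hy
  have e : (⟨gL (PicX.map c0 O L x), hgy⟩ : J0L c0 O L P00) =
      ⟨PicX.map c0 O L (gO x), Subgroup.mem_map_of_mem _ (hP x hx)⟩ :=
    Subtype.ext (hcomm x).symm
  show redL hinj ⟨gL (PicX.map c0 O L x), hgy⟩ = redL hinj ⟨PicX.map c0 O L x, hy⟩
  rw [e, redL_map hinj _ (hP x hx), hred x hx]
  exact (redL_map hinj x hx).symm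

/-! ### Functoriality in `(O, L)` -/

section Functorial

variable {O' : Type u} [CommRing O'] [IsDomain O'] [IsDiscreteValuationRing O'] [Algebra W O']
  [Algebra O O'] [IsScalarTower W O O'] [IsLocalHom (algebraMap O O')]
  {L' : Type u} [CommRing L'] [Algebra W L'] [Algebra O' L'] [IsScalarTower W O' L']
  [Algebra L L'] [IsScalarTower W L L'] [Algebra O L'] [IsScalarTower W O L']
  [IsScalarTower O L L'] [IsScalarTower O O' L']
  {P00' : Subgroup (PicX c0 O')}
  (hPP : ∀ x ∈ P00, PicX.map c0 O O' x ∈ P00')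
include hPP

/-- The square `O → L → L'`, `O → O' → L'` on Picard groups. -/
theorem map_map_eq (x : PicX c0 O) :
    PicX.map c0 L L' (PicX.map c0 O L x) = PicX.map c0 O' L' (PicX.map c0 O O' x) := by
  rw [PicX.map_comp c0 O L L', PicX.map_comp c0 O O' L']

theorem map_mem_J0L {y : PicX c0 L} (hy : y ∈ J0L c0 O L P00) :
    PicX.map c0 L L' y ∈ J0L c0 O' L' P00' := by
  obtain ⟨x, hx, rfl⟩ := Subgroup.mem_map.1 hy
  exact Subgroup.mem_map.2 ⟨PicX.map c0 O O' x, hPP x hx, (map_map_eq hPP x).symm⟩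

theorem map_mem_J1L {y : PicX c0 L} (hy : y ∈ J1L c0 O L P00) :
    PicX.map c0 L L' y ∈ J1L c0 O' L' P00' := by
  obtain ⟨x, ⟨hx, hx1⟩, rfl⟩ := Subgroup.mem_map.1 hy
  refine Subgroup.mem_map.2 ⟨PicX.map c0 O O' x, ⟨hPP x hx, ?_⟩, (map_map_eq hPP x).symm⟩
  have h1 : PicX.map c0 O (IsLocalRing.ResidueField O) x = 1 := hx1
  show PicX.map c0 O' (IsLocalRing.ResidueField O') (PicX.map c0 O O' x) = 1
  rw [PicX.map_comp c0 O O' (IsLocalRing.ResidueField O'),
    ← PicX.map_comp c0 O (IsLocalRing.ResidueField O) (IsLocalRing.ResidueField O'), h1, map_one]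

/-- `redL` commutes with extension of `(O, L)`. -/
theorem redL_map_ext (hinj : ExtInjective00 c0 O L P00) (hinj' : ExtInjective00 c0 O' L' P00')
    (y : J0L c0 O L P00) :
    redL hinj' ⟨PicX.map c0 L L' y, map_mem_J0L hPP y.2⟩ =
      PicX.map c0 (IsLocalRing.ResidueField O) (IsLocalRing.ResidueField O') (redL hinj y) := by
  obtain ⟨y, hy⟩ := y
  obtain ⟨x, hx, rfl⟩ := Subgroup.mem_map.1 hy
  have e : (⟨PicX.map c0 L L' (PicX.map c0 O L x), map_mem_J0L hPP hy⟩ : J0L c0 O' L' P00') =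
      ⟨PicX.map c0 O' L' (PicX.map c0 O O' x), Subgroup.mem_map_of_mem _ (hPP x hx)⟩ :=
    Subtype.ext (map_map_eq hPP x)
  rw [e, redL_map hinj' _ (hPP x hx)]
  have h2 : redL hinj ⟨PicX.map c0 O L x, hy⟩ = red c0 O x := redL_map hinj x hx
  rw [h2]
  show PicX.map c0 O' (IsLocalRing.ResidueField O') (PicX.map c0 O O' x) =
    PicX.map c0 (IsLocalRing.ResidueField O) (IsLocalRing.ResidueField O')
      (PicX.map c0 O (IsLocalRing.ResidueField O) x)
  rw [PicX.map_comp c0 O O' (IsLocalRing.ResidueField O'),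
    PicX.map_comp c0 O (IsLocalRing.ResidueField O) (IsLocalRing.ResidueField O')]

end Functorial

end Fermat.Agent.T1B.RedN3
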