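/-
Programme T1B (row 38 via S44), brick F4 RED-N (526, helper3), item RED-INST: the RED fields of
`Local66.Assembly.LocalGeom` (`J1`, `J1_le`, `sub_mem_J1`) on helper66's unions over the levels
(`Local66/Union.lean` v2), from helper54's inertia action (`Bridge54/IpUnion.lean`).

`c0 : TwoChart (Wb p K) B0 B1 B01` any two-chart datum over `W = Wb p K`; `P : ∀ E, Subgroup (PicO c0 E)`
a family of subgroups (in the application `P E = P00(O_E)`, the classes of multidegree `0`: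
helper53's `NodalBC53.Bal.P00 (transfer …)`), with

* `hP  : Compatible c0 P`                 (`hPP`: helper53 `Tower.map_mem_P00_square`),
* `hJP : ∀ E, J1Fam c0 E ≤ P E`           (helper53 `Bal.J1_le_P00_transfer`).

Generic part (any local homomorphism of DVRs `O → O'` over `W`):
* `red_map`      : `red c0 O' (x_{O'}) = (red c0 O x)_{κ'}`;
* `map_mem_J1`   : `x ∈ J̃¹(O) → x_{O'} ∈ J̃¹(O')`.

Levels:
* `isLocalHom_OO hE` : `O_E → O_E'` is a local homomorphism;
* `red_bcOO`, `compatible_J1Fam : Compatible c0 (J1Fam c0)`, `compatible_inf_J1Fam`;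
* `J0U c0 P hP := unionSub c0 P hP`, `J1U c0 P hP := unionSub c0 (P ⊓ J̃¹) _` (`mem_J0U`, `mem_J1U`);
* **`J1U_le_J0U`** (`LocalGeom.J1_le`);
* **`sub_mem_J1U`** (`LocalGeom.sub_mem_J1`): `τ • y - y ∈ J1U` for `y ∈ J0U`, `τ ∈ I_p`;
* `smul_mem_J0U`, `smul_mem_J1U` : both are inertia-stable.
-/
import Mathlib
import Fermat.Agent.T1B.RedN3.Shell
import Fermat.Agent.T1B.Bridge54.IpUnion

set_option autoImplicit false
set_option linter.unusedSectionVars false
set_option linter.style.haveILetI false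
set_option synthInstance.maxHeartbeats 400000
set_option maxHeartbeats 1000000

universe u

open Fermat.Agent.TW.B5.Iface Fermat.Agent.RED.Interface4 Fermat.Agent.T1.HubInst98
open Fermat.Agent.T1.IntSub47 Fermat.Agent.Jac Fermat.Agent.T1.RedIface75 Fermat.Agent.T1.Red11
open Fermat.Agent.T1B.Local66.LocalBase Fermat.Agent.T1B.Local66.Union
open Fermat.Agent.T1B.Plumb66.Inertia (Ip mem_Ip)
open Fermat.Agent.T1B.Bridge54.IpAction Fermat.Agent.T1B.Bridge54.IpInst
open Fermat.Agent.T1B.Bridge54.IpUnion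
open Fermat.Agent.ES.P36.InertField27 (InertFixed)

noncomputable section

namespace Fermat.Agent.T1B.RedN3.UnionInst

/-! ### Generic part: `red` and a local homomorphism of DVRs -/

section Generic

variable {W B0 B1 B01 : Type u} [CommRing W] [CommRing B0] [CommRing B1] [CommRing B01]
  [Algebra W B0] [Algebra W B1] [Algebra W B01] [Algebra B0 B01] [Algebra B1 B01]
  [IsScalarTower W B0 B01] [IsScalarTower W B1 B01]
  (c0 : TwoChart W B0 B1 B01)
  (O : Type u) [CommRing O] [IsDomain O] [IsDiscreteValuationRing O] [Algebra W O]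
  (O' : Type u) [CommRing O'] [IsDomain O'] [IsDiscreteValuationRing O'] [Algebra W O']
  [Algebra O O'] [IsScalarTower W O O'] [IsLocalHom (algebraMap O O')]

/-- **`red` commutes with base change along a local homomorphism.** -/
theorem red_map (x : PicX c0 O) :
    red c0 O' (PicX.map c0 O O' x) =
      PicX.map c0 (IsLocalRing.ResidueField O) (IsLocalRing.ResidueField O') (red c0 O x) := by
  show PicX.map c0 O' (IsLocalRing.ResidueField O') (PicX.map c0 O O' x) =
    PicX.map c0 (IsLocalRing.ResidueField O) (IsLocalRing.ResidueField O')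
      (PicX.map c0 O (IsLocalRing.ResidueField O) x)
  rw [PicX.map_comp c0 O O' (IsLocalRing.ResidueField O'),
    PicX.map_comp c0 O (IsLocalRing.ResidueField O) (IsLocalRing.ResidueField O')]

/-- The kernel of reduction is preserved by base change. -/
theorem map_mem_J1 {x : PicX c0 O} (hx : x ∈ J1 c0 O) : PicX.map c0 O O' x ∈ J1 c0 O' := by
  have h1 : red c0 O x = 1 := hx
  show red c0 O' (PicX.map c0 O O' x) = 1
  rw [red_map, h1, map_one]

end Generic

/-! ### The levels -/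

variable {p : ℕ} [Fact p.Prime] {K : IntermediateField ℚ Qbar}

/-- `O_E → O_E'` is a local homomorphism. -/
theorem isLocalHom_OO {E E' : IntermediateField ℚ_[p] (Kbar p)} (hE : E ≤ E') :
    letI := algOO (p := p) hE
    IsLocalHom (algebraMap ↥(intSubring p E) ↥(intSubring p E')) := by
  letI := algOO (p := p) hE
  refine ⟨fun x hx => ?_⟩
  obtain ⟨u, hu⟩ := hx
  have h2 : (u : ↥(intSubring p E')) * ((u⁻¹ : (↥(intSubring p E'))ˣ) : ↥(intSubring p E')) = 1 :=
    u.mul_inv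
  rw [hu] at h2
  have h3 : (x : Kbar p) * (((u⁻¹ : (↥(intSubring p E'))ˣ) : ↥(intSubring p E')) : Kbar p) = 1 :=
    congrArg (fun z : ↥(intSubring p E') => (z : Kbar p)) h2
  have hx0 : (x : Kbar p) ≠ 0 := left_ne_zero_of_mul_eq_one h3
  have hinv : (((u⁻¹ : (↥(intSubring p E'))ˣ) : ↥(intSubring p E')) : Kbar p) = (x : Kbar p)⁻¹ :=
    eq_inv_of_mul_eq_one_right h3
  have hmem : (x : Kbar p)⁻¹ ∈ intSubring p E := by
    refine ⟨E.inv_mem x.2.1, ?_⟩
    rw [← hinv]
    exact ((u⁻¹ : (↥(intSubring p E'))ˣ) : ↥(intSubring p E')).2.2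
  refine ⟨⟨x, ⟨(x : Kbar p)⁻¹, hmem⟩, Subtype.ext ?_, Subtype.ext ?_⟩, rfl⟩
  · show (x : Kbar p) * (x : Kbar p)⁻¹ = 1
    exact mul_inv_cancel₀ hx0
  · show (x : Kbar p)⁻¹ * (x : Kbar p) = 1
    exact inv_mul_cancel₀ hx0

section Charts

variable {B0 B1 B01 : Type} [CommRing B0] [CommRing B1] [CommRing B01]
  [Algebra (Wb p K) B0] [Algebra (Wb p K) B1] [Algebra (Wb p K) B01] [Algebra B0 B01]
  [Algebra B1 B01] [IsScalarTower (Wb p K) B0 B01] [IsScalarTower (Wb p K) B1 B01]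
  (c0 : TwoChart (Wb p K) B0 B1 B01)

/-- `bcOO` preserves the kernel of reduction. -/
theorem bcOO_mem_J1Fam {E E' : NLevel p K} (hE : E ≤ E') {x : PicO c0 E}
    (hx : x ∈ J1Fam c0 E) : bcOO c0 hE x ∈ J1Fam c0 E' := by
  letI := algWO E.lev
  letI := algWO E'.lev
  letI := algOO (p := p) (NLevel.E_le hE)
  haveI := tower_W_O_O E.lev (NLevel.E_le hE)
  haveI := isDVR_O E.E
  haveI := isDVR_O E'.E
  haveI := isLocalHom_OO (p := p) (NLevel.E_le hE)
  exact map_mem_J1 c0 ↥(intSubring p E.E) ↥(intSubring p E'.E) hx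

/-- **The kernels of reduction form a compatible family.** -/
theorem compatible_J1Fam : Compatible c0 (J1Fam c0) :=
  fun _ _ hE _ hx => bcOO_mem_J1Fam c0 hE hx

/-- `P ⊓ J̃¹` is compatible as soon as `P` is. -/
theorem compatible_inf_J1Fam {P : ∀ E : NLevel p K, Subgroup (PicO c0 E)}
    (hP : Compatible c0 P) : Compatible c0 (fun E => P E ⊓ J1Fam c0 E) :=
  fun E E' hE x hx => Subgroup.mem_inf.2
    ⟨hP E E' hE x (Subgroup.mem_inf.1 hx).1, bcOO_mem_J1Fam c0 hE (Subgroup.mem_inf.1 hx).2⟩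

variable [Nonempty (NLevel p K)]

/-- **`J⁰`** of `LocalGeom`: the union over the levels of the images of the `P E`. -/
def J0U (P : ∀ E : NLevel p K, Subgroup (PicO c0 E)) (hP : Compatible c0 P) :
    AddSubgroup (Atop p K c0) :=
  unionSub c0 P hP

/-- **`J¹`** of `LocalGeom`: the union over the levels of the images of the `P E ⊓ J̃¹(O_E)`. -/
def J1U (P : ∀ E : NLevel p K, Subgroup (PicO c0 E)) (hP : Compatible c0 P) :
    AddSubgroup (Atop p K c0) :=
  unionSub c0 (fun E => P E ⊓ J1Fam c0 E) (compatible_inf_J1Fam c0 hP)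

variable {P : ∀ E : NLevel p K, Subgroup (PicO c0 E)} {hP : Compatible c0 P}

theorem mem_J0U {y : Atop p K c0} :
    y ∈ J0U c0 P hP ↔ ∃ (E : NLevel p K) (x : PicO c0 E), x ∈ P E ∧
      Additive.ofMul (bcO c0 E x) = y :=
  Iff.rfl

theorem mem_J1U {y : Atop p K c0} :
    y ∈ J1U c0 P hP ↔ ∃ (E : NLevel p K) (x : PicO c0 E), x ∈ P E ∧ x ∈ J1Fam c0 E ∧
      Additive.ofMul (bcO c0 E x) = y := by
  constructor
  · rintro ⟨E, x, hx, rfl⟩
    exact ⟨E, x, (Subgroup.mem_inf.1 hx).1, (Subgroup.mem_inf.1 hx).2, rfl⟩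
  · rintro ⟨E, x, hx, hx1, rfl⟩
    exact ⟨E, x, Subgroup.mem_inf.2 ⟨hx, hx1⟩, rfl⟩

/-- **`LocalGeom.J1_le`.** -/
theorem J1U_le_J0U : J1U c0 P hP ≤ J0U c0 P hP :=
  unionSub_mono c0 fun _ => inf_le_left

/-- **`LocalGeom.sub_mem_J1`**: inertia acts trivially on `J⁰ / J¹`. -/
theorem sub_mem_J1U (hK : InertFixed (padicPlace p) K) (hJP : ∀ E, J1Fam c0 E ≤ P E)
    (τ : ↥(Ip p)) {y : Atop p K c0} (hy : y ∈ J0U c0 P hP) :
    letI := actTop c0 hK
    τ • y - y ∈ J1U c0 P hP :=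
  smul_sub_mem_unionSub_J1 c0 hK (hP := hP) (hP1 := compatible_inf_J1Fam c0 hP) hJP τ hy

/-- `J⁰` is inertia-stable. -/
theorem smul_mem_J0U (hK : InertFixed (padicPlace p) K) (hJP : ∀ E, J1Fam c0 E ≤ P E)
    (τ : ↥(Ip p)) {y : Atop p K c0} (hy : y ∈ J0U c0 P hP) :
    letI := actTop c0 hK
    τ • y ∈ J0U c0 P hP :=
  smul_mem_unionSub_of_J1Fam_le c0 hK hJP τ hy

/-- `J¹` is inertia-stable. -/
theorem smul_mem_J1U (hK : InertFixed (padicPlace p) K) (hJP : ∀ E, J1Fam c0 E ≤ P E)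
    (τ : ↥(Ip p)) {y : Atop p K c0} (hy : y ∈ J1U c0 P hP) :
    letI := actTop c0 hK
    τ • y ∈ J1U c0 P hP :=
  smul_mem_unionSub_inf_J1 c0 hK (P := P) (hP1 := compatible_inf_J1Fam c0 hP)
    (fun E τ _ hx => gO_mem_of_J1Fam_le c0 hK E (hJP E) τ hx) τ hy

end Charts

end Fermat.Agent.T1B.RedN3.UnionInst
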